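/-
Programme JAC (S25), work package B7b: `poincare_mem` for free.

If `J → Spec k` is locally of finite type and geometrically integral and `P` is a rigidified line
bundle on `C ×ₖ J` whose restriction along the zero section is trivial, then every geometric fibre
of `P` is algebraically equivalent to zero in the sense of the Prelude: the connecting family is
`J_K` itself, with the pullback of `P`.
-/
import Mathlib
import Fermat.Prelude.Def_AlgebraicGeometry_RelPicardAlgEquivZeroCut

set_option autoImplicit false

universe u

open CategoryTheory CategoryTheory.Limits AlgebraicGeometry AlgebraicGeometry.RelPicard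
  NeronModelInfra GoodReductionJacobian

namespace Fermat.Agent.JAC.AE0.PoincareMem35

/-- Pulling a sheaf of modules back along the two sides of a commutative square gives isomorphic
results. -/
noncomputable def pullbackSquareIso {X Y Y' Z : Scheme.{u}} (f : X ⟶ Y) (g : Y ⟶ Z)
    (f' : X ⟶ Y') (g' : Y' ⟶ Z) (h : f ≫ g = f' ≫ g') (M : Z.Modules) :
    (Scheme.Modules.pullback f).obj ((Scheme.Modules.pullback g).obj M) ≅
      (Scheme.Modules.pullback f').obj ((Scheme.Modules.pullback g').obj M) :=
  (Scheme.Modules.pullbackComp f g).app M ≪≫ (Scheme.Modules.pullbackCongr h).app M ≪≫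
    ((Scheme.Modules.pullbackComp f' g').app M).symm

variable {k : Type u} [Field k] {C : Scheme.{u}} {c : C ⟶ Spec (CommRingCat.of k)}
  {ε : SchemeHomOver (𝟙 (Spec (CommRingCat.of k))) c}

/-- **B7b.** A rigidified line bundle on `C ×ₖ J`, trivial along the zero section of a
geometrically integral `J` locally of finite type over `k`, is fibrewise algebraically equivalent
to zero. -/
theorem fibrewiseAlgEquivZero_of_zero (D : RelativePic0Designation k c)
    [LocallyOfFiniteType D.toBase] [GeometricallyIntegral D.toBase]
    (P : RigidifiedLineBundle c ε D.toBase)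
    (hzero : Nonempty ((P.pullbackAlong ⟨D.zeroSection, D.zeroSection_toBase⟩).L ≅
      (RigidifiedLineBundle.unit (c := c) (ε := ε) (𝟙 _)).L)) :
    FibrewiseAlgEquivZero P := by
  intro K _ _ s
  obtain ⟨ez⟩ := hzero
  -- notation
  let x : Spec (CommRingCat.of K) ⟶ Spec (CommRingCat.of k) := s ≫ D.toBase
  let a := fibreAt c D.toBase s
  -- the connecting family: `J_K`
  let h : pullback D.toBase x ⟶ Spec (CommRingCat.of K) := pullback.snd D.toBase x
  have hcond : pullback.fst (pullback.snd c D.toBase) s ≫ pullback.snd c D.toBase = a ≫ s :=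
    pullback.condition
  -- the map `A ×_K J_K ⟶ C ×ₖ J`
  let q : pullback a h ⟶ pullback c D.toBase :=
    pullback.lift
      (pullback.fst a h ≫ pullback.fst (pullback.snd c D.toBase) s ≫ pullback.fst c D.toBase)
      (pullback.snd a h ≫ pullback.fst D.toBase x)
      (by
        have h1 : pullback.fst c D.toBase ≫ c = pullback.snd c D.toBase ≫ D.toBase :=
          pullback.condition
        have h2 : pullback.fst D.toBase x ≫ D.toBase = h ≫ x := pullback.condition
        have h3 : pullback.fst a h ≫ a = pullback.snd a h ≫ h := pullback.condition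
        simp only [Category.assoc]
        rw [h1, reassoc_of% hcond, h2, reassoc_of% h3])
  have hq_fst : q ≫ pullback.fst c D.toBase =
      pullback.fst a h ≫ pullback.fst (pullback.snd c D.toBase) s ≫ pullback.fst c D.toBase :=
    pullback.lift_fst _ _ _
  have hq_snd : q ≫ pullback.snd c D.toBase = pullback.snd a h ≫ pullback.fst D.toBase x :=
    pullback.lift_snd _ _ _
  -- the two `K`-points of `J_K`
  let t₀ : SchemeHomOver (𝟙 (Spec (CommRingCat.of K))) h :=
    ⟨pullback.lift (x ≫ D.zeroSection) (𝟙 _)
      (by rw [Category.assoc, D.zeroSection_toBase, Category.comp_id, Category.id_comp]),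
      pullback.lift_snd _ _ _⟩
  let t₁ : SchemeHomOver (𝟙 (Spec (CommRingCat.of K))) h :=
    ⟨pullback.lift s (𝟙 _) (by rw [Category.id_comp]), pullback.lift_snd _ _ _⟩
  refine ⟨pullback D.toBase x, h, inferInstance, inferInstance,
    (Scheme.Modules.pullback q).obj P.L, P.isInvertible.pullback q, t₀, t₁, ⟨?_⟩, ⟨?_⟩⟩
  · -- trivial along `t₀`
    let r : pullback a (𝟙 (Spec (CommRingCat.of K))) ⟶ pullback c (𝟙 (Spec (CommRingCat.of k))) :=
      pullback.lift
        (pullback.fst a (𝟙 _) ≫ pullback.fst (pullback.snd c D.toBase) s ≫ pullback.fst c D.toBase)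
        (pullback.snd a (𝟙 _) ≫ x)
        (by
          have h1 : pullback.fst c D.toBase ≫ c = pullback.snd c D.toBase ≫ D.toBase :=
            pullback.condition
          have h3 : pullback.fst a (𝟙 (Spec (CommRingCat.of K))) ≫ a =
              pullback.snd a (𝟙 _) ≫ 𝟙 _ := pullback.condition
          simp only [Category.assoc, Category.comp_id]
          rw [h1, reassoc_of% hcond, reassoc_of% h3])
    have hsq : baseChangeSnd a t₀ ≫ q =
        r ≫ baseChangeSnd c (⟨D.zeroSection, D.zeroSection_toBase⟩ :
          SchemeHomOver (𝟙 (Spec (CommRingCat.of k))) D.toBase) := by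
      apply pullback.hom_ext
      · simp only [Category.assoc, hq_fst, baseChangeSnd, pullback.lift_fst_assoc,
          pullback.lift_fst, Category.comp_id, r]
      · simp only [Category.assoc, hq_snd, baseChangeSnd, pullback.lift_snd_assoc,
          pullback.lift_snd, pullback.lift_fst, r, t₀]
    exact pullbackSquareIso _ _ _ _ hsq P.L ≪≫ (Scheme.Modules.pullback r).mapIso ez ≪≫
      Scheme.Modules.pullbackUnitIso r
  · -- the fibre along `t₁`
    have hsq : baseChangeSnd a t₁ ≫ q =
        pullback.fst a (𝟙 _) ≫ pullback.fst (pullback.snd c D.toBase) s := by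
      apply pullback.hom_ext
      · simp only [Category.assoc, hq_fst, baseChangeSnd, pullback.lift_fst_assoc,
          Category.id_comp]
      · have h3 : pullback.fst a (𝟙 (Spec (CommRingCat.of K))) ≫ a =
            pullback.snd a (𝟙 _) ≫ 𝟙 _ := pullback.condition
        simp only [Category.assoc, hq_snd, baseChangeSnd, pullback.lift_snd_assoc,
          pullback.lift_fst, t₁]
        rw [hcond, reassoc_of% h3]
    exact pullbackSquareIso _ _ _ _ hsq P.L

end Fermat.Agent.JAC.AE0.PoincareMem35
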