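/-
Programme JAC (S25), work package B7a: algebraic equivalence to zero forces fibre degree zero.

The fibre degree is an abstract datum `FibreDegree c` (an integer invariant of sheaves of modules on
the geometric fibres `C_K`, invariant under isomorphism, vanishing on the structure sheaf and locally
constant in affine families).  We prove that a sheaf on a geometric fibre which is algebraically
equivalent to zero in the sense of the Prelude has degree zero, and deduce the fibrewise statement
for rigidified line bundles satisfying `FibrewiseAlgEquivZero`.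
-/
import Mathlib
import Fermat.Prelude.Def_AlgebraicGeometry_RelPicardAlgEquivZeroCut
import Fermat.Agent.JAC.AE0.PoincareMem35

set_option autoImplicit false
set_option linter.unusedSectionVars false

universe u

open CategoryTheory CategoryTheory.Limits AlgebraicGeometry AlgebraicGeometry.RelPicard
  NeronModelInfra GoodReductionJacobian

namespace Fermat.Agent.JAC.AE0.DegZero35

open Fermat.Agent.JAC.AE0.PoincareMem35

variable {k : Type u} [Field k] {C : Scheme.{u}}

/-- An abstract degree theory on the geometric fibres of `c : C ⟶ Spec k`. -/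
structure FibreDegree (c : C ⟶ Spec (CommRingCat.of k)) : Type (u + 1) where
  /-- the degree of a sheaf of modules on the geometric fibre `C_K` -/
  deg : ∀ {K : Type u} [Field K] [IsAlgClosed K]
    (x : Spec (CommRingCat.of K) ⟶ Spec (CommRingCat.of k)), (pullback c x).Modules → ℤ
  deg_congr : ∀ {K : Type u} [Field K] [IsAlgClosed K]
    (x : Spec (CommRingCat.of K) ⟶ Spec (CommRingCat.of k)) {L L' : (pullback c x).Modules},
    Nonempty (L ≅ L') → deg x L = deg x L'
  deg_unit : ∀ {K : Type u} [Field K] [IsAlgClosed K]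
    (x : Spec (CommRingCat.of K) ⟶ Spec (CommRingCat.of k)),
    deg x (SheafOfModules.unit (pullback c x).ringCatSheaf) = 0
  locally_constant : ∀ {K : Type u} [Field K] [IsAlgClosed K]
    (x : Spec (CommRingCat.of K) ⟶ Spec (CommRingCat.of k)) (B : CommRingCat.{u})
    (y : Spec B ⟶ Spec (CommRingCat.of k)) (𝓜 : (pullback c y).Modules),
    Scheme.Modules.IsInvertible 𝓜 → ∀ φ₀ : SchemeHomOver x y,
      ∃ U : (Spec B).Opens, φ₀.1 (IsLocalRing.closedPoint K) ∈ U ∧
        ∀ φ : SchemeHomOver x y, φ.1 (IsLocalRing.closedPoint K) ∈ U →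
          deg x ((Scheme.Modules.pullback (baseChangeSnd c φ)).obj 𝓜) =
            deg x ((Scheme.Modules.pullback (baseChangeSnd c φ₀)).obj 𝓜)

variable {c : C ⟶ Spec (CommRingCat.of k)}

section Family

variable {K : Type u} [Field K] [IsAlgClosed K]
  (x : Spec (CommRingCat.of K) ⟶ Spec (CommRingCat.of k))
  {T' : Scheme.{u}} (h : T' ⟶ Spec (CommRingCat.of K))

/-- The inclusion of the fibre of `C_K ×_K T'` over a `K`-point `τ` of `T'`. -/
noncomputable def fibreIncl (τ : SchemeHomOver (𝟙 (Spec (CommRingCat.of K))) h) :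
    pullback c x ⟶ pullback (pullback.snd c x) h :=
  pullback.lift (𝟙 _) (pullback.snd c x ≫ τ.1)
    (by rw [Category.assoc, τ.2, Category.comp_id, Category.id_comp])

@[reassoc (attr := simp)]
lemma fibreIncl_fst (τ : SchemeHomOver (𝟙 (Spec (CommRingCat.of K))) h) :
    fibreIncl x h τ ≫ pullback.fst (pullback.snd c x) h = 𝟙 _ :=
  pullback.lift_fst _ _ _

@[reassoc (attr := simp)]
lemma fibreIncl_snd (τ : SchemeHomOver (𝟙 (Spec (CommRingCat.of K))) h) :
    fibreIncl x h τ ≫ pullback.snd (pullback.snd c x) h = pullback.snd c x ≫ τ.1 :=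
  pullback.lift_snd _ _ _

/-- The section `C_K ⟶ C_K ×_K Spec K`. -/
noncomputable def diagSection :
    pullback c x ⟶ pullback (pullback.snd c x) (𝟙 (Spec (CommRingCat.of K))) :=
  pullback.lift (𝟙 _) (pullback.snd c x) (by rw [Category.id_comp, Category.comp_id])

lemma diagSection_baseChangeSnd (τ : SchemeHomOver (𝟙 (Spec (CommRingCat.of K))) h) :
    diagSection x ≫ baseChangeSnd (pullback.snd c x) τ = fibreIncl x h τ := by
  apply pullback.hom_ext
  · simp only [diagSection, baseChangeSnd, fibreIncl, Category.assoc, pullback.lift_fst,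
      Category.comp_id]
  · simp only [diagSection, baseChangeSnd, fibreIncl, Category.assoc, pullback.lift_snd,
      pullback.lift_snd_assoc]

lemma diagSection_fst :
    diagSection x ≫ pullback.fst (pullback.snd c x) (𝟙 (Spec (CommRingCat.of K))) = 𝟙 _ :=
  pullback.lift_fst _ _ _

variable (d : FibreDegree c) (Mfam : (pullback (pullback.snd c x) h).Modules)

/-- The degree of the member of the family `Mfam` over the `K`-point `τ`. -/
noncomputable def famDeg (τ : SchemeHomOver (𝟙 (Spec (CommRingCat.of K))) h) : ℤ :=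
  d.deg x ((Scheme.Modules.pullback (fibreIncl x h τ)).obj Mfam)

/-- The member over `τ`, computed through `baseChangeSnd`. -/
noncomputable def fibreInclIso (τ : SchemeHomOver (𝟙 (Spec (CommRingCat.of K))) h) :
    (Scheme.Modules.pullback (fibreIncl x h τ)).obj Mfam ≅
      (Scheme.Modules.pullback (diagSection x)).obj
        ((Scheme.Modules.pullback (baseChangeSnd (pullback.snd c x) τ)).obj Mfam) :=
  ((Scheme.Modules.pullbackCongr (diagSection_baseChangeSnd x h τ)).app Mfam).symm ≪≫
    ((Scheme.Modules.pullbackComp _ _).app Mfam).symm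

lemma famDeg_eq_zero (τ : SchemeHomOver (𝟙 (Spec (CommRingCat.of K))) h)
    (e : (Scheme.Modules.pullback (baseChangeSnd (pullback.snd c x) τ)).obj Mfam ≅
      SheafOfModules.unit
        (pullback (pullback.snd c x) (𝟙 (Spec (CommRingCat.of K)))).ringCatSheaf) :
    famDeg x h d Mfam τ = 0 := by
  rw [famDeg, ← d.deg_unit x]
  exact d.deg_congr x ⟨fibreInclIso x h Mfam τ ≪≫
    (Scheme.Modules.pullback (diagSection x)).mapIso e ≪≫
    Scheme.Modules.pullbackUnitIso (diagSection x)⟩

lemma famDeg_eq_deg (τ : SchemeHomOver (𝟙 (Spec (CommRingCat.of K))) h)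
    (L : (pullback c x).Modules)
    (e : (Scheme.Modules.pullback (baseChangeSnd (pullback.snd c x) τ)).obj Mfam ≅
      (Scheme.Modules.pullback
        (pullback.fst (pullback.snd c x) (𝟙 (Spec (CommRingCat.of K))))).obj L) :
    famDeg x h d Mfam τ = d.deg x L := by
  rw [famDeg]
  exact d.deg_congr x ⟨fibreInclIso x h Mfam τ ≪≫
    (Scheme.Modules.pullback (diagSection x)).mapIso e ≪≫
    (Scheme.Modules.pullbackComp _ _).app L ≪≫
    (Scheme.Modules.pullbackCongr (diagSection_fst x)).app L ≪≫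
    (Scheme.Modules.pullbackId _).app L⟩

section Chart

variable {B : CommRingCat.{u}} (jV : Spec B ⟶ T')

/-- The chart `C ×ₖ Spec B ⟶ C_K ×_K T'` over an affine chart `jV : Spec B ⟶ T'`. -/
noncomputable def chartMap :
    pullback c (jV ≫ h ≫ x) ⟶ pullback (pullback.snd c x) h :=
  pullback.lift
    (pullback.lift (pullback.fst c (jV ≫ h ≫ x)) (pullback.snd c (jV ≫ h ≫ x) ≫ jV ≫ h)
      (by rw [pullback.condition]; simp only [Category.assoc]))
    (pullback.snd c (jV ≫ h ≫ x) ≫ jV)
    (by simp only [pullback.lift_snd, Category.assoc])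

/-- A `K`-point of the chart `Spec B` lying over the `K`-point `τ` of `T'`, as a point over `k`. -/
def chartPoint (τ : SchemeHomOver (𝟙 (Spec (CommRingCat.of K))) h)
    (φ : Spec (CommRingCat.of K) ⟶ Spec B) (hφ : φ ≫ jV = τ.1) :
    SchemeHomOver x (jV ≫ h ≫ x) :=
  ⟨φ, by rw [reassoc_of% hφ, reassoc_of% τ.2]⟩

lemma baseChangeSnd_chartMap (τ : SchemeHomOver (𝟙 (Spec (CommRingCat.of K))) h)
    (φ : Spec (CommRingCat.of K) ⟶ Spec B) (hφ : φ ≫ jV = τ.1) :
    baseChangeSnd c (chartPoint x h jV τ φ hφ) ≫ chartMap x h jV = fibreIncl x h τ := by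
  apply pullback.hom_ext
  · apply pullback.hom_ext
    · simp only [baseChangeSnd, chartMap, chartPoint, fibreIncl, Category.assoc,
        pullback.lift_fst, Category.comp_id, Category.id_comp]
    · simp only [baseChangeSnd, chartMap, chartPoint, fibreIncl, Category.assoc,
        pullback.lift_fst, pullback.lift_snd, pullback.lift_snd_assoc, Category.id_comp]
      rw [reassoc_of% hφ, τ.2, Category.comp_id]
  · simp only [baseChangeSnd, chartMap, chartPoint, fibreIncl, Category.assoc,
      pullback.lift_snd, pullback.lift_snd_assoc]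
    rw [hφ]

lemma famDeg_eq_chart (τ : SchemeHomOver (𝟙 (Spec (CommRingCat.of K))) h)
    (φ : Spec (CommRingCat.of K) ⟶ Spec B) (hφ : φ ≫ jV = τ.1) :
    famDeg x h d Mfam τ =
      d.deg x ((Scheme.Modules.pullback (baseChangeSnd c (chartPoint x h jV τ φ hφ))).obj
        ((Scheme.Modules.pullback (chartMap x h jV)).obj Mfam)) := by
  rw [famDeg]
  exact d.deg_congr x
    ⟨((Scheme.Modules.pullbackCongr (baseChangeSnd_chartMap x h jV τ φ hφ)).app Mfam).symm ≪≫
      ((Scheme.Modules.pullbackComp _ _).app Mfam).symm⟩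

end Chart

/-- The degree of the members of an invertible family is locally constant on `K`-points. -/
lemma exists_open_famDeg_eq (hM : Scheme.Modules.IsInvertible Mfam)
    (τ₀ : SchemeHomOver (𝟙 (Spec (CommRingCat.of K))) h) :
    ∃ W : T'.Opens, τ₀.1 (IsLocalRing.closedPoint K) ∈ W ∧
      ∀ τ : SchemeHomOver (𝟙 (Spec (CommRingCat.of K))) h,
        τ.1 (IsLocalRing.closedPoint K) ∈ W → famDeg x h d Mfam τ = famDeg x h d Mfam τ₀ := by
  classical
  let 𝒰 := T'.affineOpenCover
  let z : T' := τ₀.1 (IsLocalRing.closedPoint K)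
  let jV : Spec (𝒰.X (𝒰.idx z)) ⟶ T' := 𝒰.f (𝒰.idx z)
  have : IsOpenImmersion jV := 𝒰.map_prop (𝒰.idx z)
  -- every `K`-point landing in the chart factors through it
  have hlift : ∀ τ : SchemeHomOver (𝟙 (Spec (CommRingCat.of K))) h,
      τ.1 (IsLocalRing.closedPoint K) ∈ Set.range jV →
        ∃ φ : Spec (CommRingCat.of K) ⟶ Spec (𝒰.X (𝒰.idx z)), φ ≫ jV = τ.1 := by
    intro τ hτ
    have hr : Set.range τ.1 ⊆ Set.range jV := by
      rintro _ ⟨p, rfl⟩
      rwa [Subsingleton.elim p (IsLocalRing.closedPoint K)]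
    exact ⟨IsOpenImmersion.lift jV τ.1 hr, IsOpenImmersion.lift_fac _ _ _⟩
  obtain ⟨φ₀, hφ₀⟩ := hlift τ₀ (𝒰.covers z)
  obtain ⟨U, hU₀, hU⟩ := d.locally_constant x (𝒰.X (𝒰.idx z)) (jV ≫ h ≫ x)
    ((Scheme.Modules.pullback (chartMap x h jV)).obj Mfam) (hM.pullback _)
    (chartPoint x h jV τ₀ φ₀ hφ₀)
  have hpt : ∀ (τ : SchemeHomOver (𝟙 (Spec (CommRingCat.of K))) h)
      (φ : Spec (CommRingCat.of K) ⟶ Spec (𝒰.X (𝒰.idx z))), φ ≫ jV = τ.1 →
        jV (φ (IsLocalRing.closedPoint K)) = τ.1 (IsLocalRing.closedPoint K) := by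
    intro τ φ hφ
    rw [← hφ]
    rfl
  refine ⟨jV ''ᵁ U, ?_, ?_⟩
  · rw [← hpt τ₀ φ₀ hφ₀]
    exact (Scheme.Hom.apply_mem_image_iff jV).mpr hU₀
  · intro τ hτ
    have hτ' : τ.1 (IsLocalRing.closedPoint K) ∈ Set.range jV := by
      obtain ⟨p, -, hp⟩ := hτ
      exact ⟨p, hp⟩
    obtain ⟨φ, hφ⟩ := hlift τ hτ'
    rw [famDeg_eq_chart x h d Mfam jV τ φ hφ, famDeg_eq_chart x h d Mfam jV τ₀ φ₀ hφ₀]
    apply hU
    rw [← hpt τ φ hφ] at hτ
    exact (Scheme.Hom.apply_mem_image_iff jV).mp hτ

end Family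

/-- **B7a.** A sheaf of modules on a geometric fibre of `c` which is algebraically equivalent to
zero has degree zero. -/
theorem deg_eq_zero_of_isAlgEquivZero (d : FibreDegree c) {K : Type u} [Field K] [IsAlgClosed K]
    (x : Spec (CommRingCat.of K) ⟶ Spec (CommRingCat.of k)) (L : (pullback c x).Modules)
    (hL : IsAlgEquivZero (pullback.snd c x) L) : d.deg x L = 0 := by
  obtain ⟨T', h, hft, hgi, Mfam, hM, t₀, t₁, ⟨e₀⟩, ⟨e₁⟩⟩ := hL
  have := hft
  have := hgi
  have : IsIntegral T' := GeometricallyIntegral.isIntegral_of_subsingleton h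
  have : JacobsonSpace T' := LocallyOfFiniteType.jacobsonSpace h
  obtain ⟨W₀, hW₀, hc₀⟩ := exists_open_famDeg_eq x h d Mfam hM t₀
  obtain ⟨W₁, hW₁, hc₁⟩ := exists_open_famDeg_eq x h d Mfam hM t₁
  -- the two opens meet in a closed point, i.e. a `K`-point
  have hne : ((W₀ : Set T') ∩ (W₁ : Set T')).Nonempty :=
    nonempty_preirreducible_inter W₀.2 W₁.2 ⟨_, hW₀⟩ ⟨_, hW₁⟩
  obtain ⟨w, ⟨hw₀, hw₁⟩, hwc⟩ := nonempty_inter_closedPoints hne
    (W₀.2.inter W₁.2).isLocallyClosed
  have hwc' : IsClosed ({w} : Set T') := mem_closedPoints_iff.mp hwc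
  let τ : SchemeHomOver (𝟙 (Spec (CommRingCat.of K))) h :=
    ⟨pointOfClosedPoint h w hwc', pointOfClosedPoint_comp h w hwc'⟩
  have hτ : τ.1 (IsLocalRing.closedPoint K) = w := pointOfClosedPoint_apply h w hwc' _
  have h0 : famDeg x h d Mfam τ = famDeg x h d Mfam t₀ := hc₀ τ (by rw [hτ]; exact hw₀)
  have h1 : famDeg x h d Mfam τ = famDeg x h d Mfam t₁ := hc₁ τ (by rw [hτ]; exact hw₁)
  rw [← famDeg_eq_deg x h d Mfam t₁ L e₁, ← h1, h0]
  exact famDeg_eq_zero x h d Mfam t₀ e₀

/-- **B7a, fibrewise form.** If a rigidified line bundle on `C ×ₖ T` is fibrewise algebraically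
equivalent to zero, then its restriction to every geometric fibre `C_K` (computed by the base change
`baseChangeSnd` along the geometric point) has degree zero. -/
theorem deg_fibre_eq_zero (d : FibreDegree c)
    {ε : SchemeHomOver (𝟙 (Spec (CommRingCat.of k))) c} {T : Scheme.{u}}
    {t : T ⟶ Spec (CommRingCat.of k)} (M : RigidifiedLineBundle c ε t)
    (hM : FibrewiseAlgEquivZero M) {K : Type u} [Field K] [IsAlgClosed K]
    (s : Spec (CommRingCat.of K) ⟶ T) :
    d.deg (s ≫ t) ((Scheme.Modules.pullback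
      (baseChangeSnd c (⟨s, rfl⟩ : SchemeHomOver (s ≫ t) t))).obj M.L) = 0 := by
  let σ : SchemeHomOver (s ≫ t) t := ⟨s, rfl⟩
  let e : pullback c (s ≫ t) ⟶ pullback (pullback.snd c t) s :=
    pullback.lift (baseChangeSnd c σ) (pullback.snd c (s ≫ t))
      (by simp only [baseChangeSnd, pullback.lift_snd, σ])
  have he : e ≫ fibreAt c t s = pullback.snd c (s ≫ t) := pullback.lift_snd _ _ _
  have hfst : e ≫ pullback.fst (pullback.snd c t) s = baseChangeSnd c σ :=
    pullback.lift_fst _ _ _
  have h1 := (hM K s).pullback e he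
  have h2 : IsAlgEquivZero (pullback.snd c (s ≫ t))
      ((Scheme.Modules.pullback (baseChangeSnd c σ)).obj M.L) :=
    h1.of_iso ((Scheme.Modules.pullbackComp _ _).app M.L ≪≫
      (Scheme.Modules.pullbackCongr hfst).app M.L)
  exact deg_eq_zero_of_isAlgEquivZero d (s ≫ t) _ h2

end Fermat.Agent.JAC.AE0.DegZero35
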