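/-
Programme JAC (S25), work package B7a: construction of a `FibreDegree c` from a degree theory given
only over the "standard" geometric points `specBase K : Spec K ⟶ Spec k` of `k`-algebra structures
(`DegPackage c`).  This file is pure transport: an arbitrary morphism
`x : Spec K ⟶ Spec k` is `specBase K` for a unique `k`-algebra structure on `K`.
-/
import Mathlib
import Fermat.Prelude.Def_AlgebraicGeometry_RelPicardAlgEquivZeroCut
import Fermat.Agent.JAC.AE0.DegZero35
import Fermat.Agent.JAC.Bridge.ChartCover57

set_option autoImplicit false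
set_option linter.unusedSectionVars false

universe u

open CategoryTheory CategoryTheory.Limits AlgebraicGeometry AlgebraicGeometry.RelPicard
  NeronModelInfra

namespace Fermat.Agent.JAC.AE0.FibreDegree35

open Fermat.Agent.JAC.AE0.DegZero35 Fermat.Agent.JAC.Bridge.ChartCover57

variable {k : Type u} [Field k] {C : Scheme.{u}} (c : C ⟶ Spec (CommRingCat.of k))

/-- A degree theory on the standard geometric fibres `C ×ₖ Spec K` (`K` an algebraically closed
field with a `k`-algebra structure), locally constant in affine families `C ×ₖ Spec B`. -/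
structure DegPackage : Type (u + 1) where
  /-- the degree on the standard geometric fibre -/
  degSB : ∀ (K : Type u) [Field K] [IsAlgClosed K] [Algebra k K],
    (pullback c (specBase (k := k) K)).Modules → ℤ
  congr : ∀ (K : Type u) [Field K] [IsAlgClosed K] [Algebra k K]
    {L L' : (pullback c (specBase (k := k) K)).Modules}, Nonempty (L ≅ L') →
      degSB K L = degSB K L'
  unit : ∀ (K : Type u) [Field K] [IsAlgClosed K] [Algebra k K],
    degSB K (SheafOfModules.unit (pullback c (specBase (k := k) K)).ringCatSheaf) = 0
  locConst : ∀ (B : Type u) [CommRing B] [Algebra k B]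
    (𝓜 : (pullback c (specBase (k := k) B)).Modules), Scheme.Modules.IsInvertible 𝓜 →
      ∃ dfun : PrimeSpectrum B → ℤ, IsLocallyConstant dfun ∧
        ∀ (K : Type u) [Field K] [IsAlgClosed K] [Algebra k K] (ψ : B →ₐ[k] K),
          degSB K ((Scheme.Modules.pullback (baseChangeSnd c (specOver B ψ))).obj 𝓜) =
            dfun ⟨RingHom.ker ψ.toRingHom, RingHom.ker_isPrime ψ.toRingHom⟩

section AlgOf

variable {B : Type u} [CommRing B]

/-- The `k`-algebra structure on `B` attached to a morphism `Spec B ⟶ Spec k`. -/
@[reducible] noncomputable def algOf (y : Spec (CommRingCat.of B) ⟶ Spec (CommRingCat.of k)) :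
    Algebra k B :=
  (Spec.preimage y).hom.toAlgebra

theorem specBase_algOf (y : Spec (CommRingCat.of B) ⟶ Spec (CommRingCat.of k)) :
    @specBase k _ B _ (algOf y) = y := by
  change Spec.map (CommRingCat.ofHom (Spec.preimage y).hom) = y
  rw [CommRingCat.ofHom_hom, Spec.map_preimage]

/-- Every morphism `Spec B ⟶ Spec k` is `specBase B` for some `k`-algebra structure. -/
theorem exists_alg_eq_specBase (y : Spec (CommRingCat.of B) ⟶ Spec (CommRingCat.of k)) :
    ∃ alg : Algebra k B, y = @specBase k _ B _ alg :=
  ⟨algOf y, (specBase_algOf y).symm⟩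

/-- The `k`-algebra structure is determined by `specBase`. -/
theorem alg_eq_of_specBase_eq (alg alg' : Algebra k B)
    (h : @specBase k _ B _ alg' = @specBase k _ B _ alg) : alg' = alg := by
  have h1 : CommRingCat.ofHom (@algebraMap k B _ _ alg') =
      CommRingCat.ofHom (@algebraMap k B _ _ alg) := Spec.map_injective h
  have h2 : @algebraMap k B _ _ alg' = @algebraMap k B _ _ alg :=
    congrArg CommRingCat.Hom.hom h1
  exact Algebra.algebra_ext _ _ (fun r => congrArg (fun f => f r) h2)

end AlgOf

section Cast

variable {c} {T : Scheme.{u}} {x y : T ⟶ Spec (CommRingCat.of k)}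

/-- Transport of a sheaf of modules along an equality of base morphisms. -/
def castMod (h : x = y) (L : (pullback c x).Modules) : (pullback c y).Modules := h ▸ L

@[simp] theorem castMod_rfl (L : (pullback c x).Modules) : castMod (rfl : x = x) L = L := rfl

/-- Transport preserves isomorphisms. -/
noncomputable def castModIso (h : x = y) {L L' : (pullback c x).Modules} (e : L ≅ L') :
    castMod h L ≅ castMod h L' := by
  subst h
  exact e

/-- Transport of the structure sheaf. -/
noncomputable def castModUnit (h : x = y) :
    castMod h (SheafOfModules.unit (pullback c x).ringCatSheaf) ≅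
      SheafOfModules.unit (pullback c y).ringCatSheaf := by
  subst h
  exact Iso.refl _

/-- Transport of a pulled-back sheaf. -/
noncomputable def castModPullback (h : x = y) {S : Scheme.{u}} {s : S ⟶ Spec (CommRingCat.of k)}
    (φ : SchemeHomOver x s) (𝓜 : (pullback c s).Modules) :
    castMod h ((Scheme.Modules.pullback (baseChangeSnd c φ)).obj 𝓜) ≅
      (Scheme.Modules.pullback
        (baseChangeSnd c (⟨φ.1, h ▸ φ.2⟩ : SchemeHomOver y s))).obj 𝓜 := by
  subst h
  exact Iso.refl _

end Cast

variable {c}

/-- The degree attached to a package, at an arbitrary geometric point of `Spec k`. -/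
noncomputable def degOf (P : DegPackage c) {K : Type u} [Field K] [IsAlgClosed K]
    (x : Spec (CommRingCat.of K) ⟶ Spec (CommRingCat.of k)) (L : (pullback c x).Modules) : ℤ :=
  @DegPackage.degSB k _ C c P K _ _ (algOf x) (castMod (specBase_algOf x).symm L)

/-- Auxiliary form of the comparison: the degree computed through any algebra structure inducing
the same base morphism. -/
theorem degSB_castMod (P : DegPackage c) {K : Type u} [Field K] [IsAlgClosed K]
    (alg alg' : Algebra k K) (h : @specBase k _ K _ alg = @specBase k _ K _ alg')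
    (L : (pullback c (@specBase k _ K _ alg)).Modules) :
    @DegPackage.degSB k _ C c P K _ _ alg' (castMod h L) =
      @DegPackage.degSB k _ C c P K _ _ alg L := by
  have e : alg = alg' := alg_eq_of_specBase_eq alg' alg h
  subst e
  rfl

/-- **Comparison (E2)**: at a standard geometric point the degree is the degree of the package. -/
theorem degOf_specBase (P : DegPackage c) (K : Type u) [Field K] [IsAlgClosed K] [Algebra k K]
    (L : (pullback c (specBase (k := k) K)).Modules) :
    degOf P (specBase (k := k) K) L = P.degSB K L :=
  degSB_castMod P _ _ _ L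

theorem degOf_congr (P : DegPackage c) {K : Type u} [Field K] [IsAlgClosed K]
    (x : Spec (CommRingCat.of K) ⟶ Spec (CommRingCat.of k)) {L L' : (pullback c x).Modules}
    (e : Nonempty (L ≅ L')) : degOf P x L = degOf P x L' :=
  @DegPackage.congr k _ C c P K _ _ (algOf x) _ _ ⟨castModIso _ e.some⟩

theorem degOf_unit (P : DegPackage c) {K : Type u} [Field K] [IsAlgClosed K]
    (x : Spec (CommRingCat.of K) ⟶ Spec (CommRingCat.of k)) :
    degOf P x (SheafOfModules.unit (pullback c x).ringCatSheaf) = 0 := by
  unfold degOf
  rw [@DegPackage.congr k _ C c P K _ _ (algOf x) _ _ ⟨castModUnit _⟩]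
  exact @DegPackage.unit k _ C c P K _ _ (algOf x)

section LocallyConstant

variable {K : Type u} [Field K] [IsAlgClosed K] [Algebra k K] {B : Type u} [CommRing B]
  [Algebra k B]

/-- The `k`-algebra map attached to a morphism `Spec K ⟶ Spec B` over `Spec k`. -/
noncomputable def algHomOf (φ : SchemeHomOver (specBase (k := k) K) (specBase (k := k) B)) :
    B →ₐ[k] K :=
  { (Spec.preimage φ.1).hom with
    commutes' := fun r => by
      have h := φ.2
      rw [← Spec.map_preimage φ.1] at h
      unfold specBase at h
      rw [← Spec.map_comp] at h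
      have h1 := Spec.map_injective h
      exact congrArg (fun f => f.hom r) h1 }

theorem specOver_algHomOf (φ : SchemeHomOver (specBase (k := k) K) (specBase (k := k) B)) :
    specOver B (algHomOf φ) = φ := by
  apply Subtype.ext
  change Spec.map (CommRingCat.ofHom (Spec.preimage φ.1).hom) = φ.1
  rw [CommRingCat.ofHom_hom, Spec.map_preimage]

theorem ker_algHomOf (φ : SchemeHomOver (specBase (k := k) K) (specBase (k := k) B)) :
    (⟨RingHom.ker (algHomOf φ).toRingHom, RingHom.ker_isPrime (algHomOf φ).toRingHom⟩ :
      PrimeSpectrum B) = φ.1 (IsLocalRing.closedPoint K) := by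
  have h : φ.1 = Spec.map (Spec.preimage φ.1) := (Spec.map_preimage φ.1).symm
  rw [h]
  apply PrimeSpectrum.ext
  change RingHom.ker (Spec.preimage φ.1).hom =
    Ideal.comap (Spec.preimage φ.1).hom (IsLocalRing.closedPoint K).asIdeal
  change _ = Ideal.comap (Spec.preimage φ.1).hom (IsLocalRing.maximalIdeal K)
  rw [IsLocalRing.maximalIdeal_eq_bot, RingHom.ker_eq_comap_bot]

end LocallyConstant

/-- **The fibre degree attached to a package.** -/
noncomputable def fibreDegreeOfPackage (P : DegPackage c) : FibreDegree c where
  deg := fun x L => degOf P x L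
  deg_congr := fun x _ _ e => degOf_congr P x e
  deg_unit := fun x => degOf_unit P x
  locally_constant := by
    intro K _ _ x B y 𝓜 h𝓜 φ₀
    obtain ⟨algK, rfl⟩ := exists_alg_eq_specBase x
    obtain ⟨algB, rfl⟩ := exists_alg_eq_specBase y
    obtain ⟨dfun, hlc, hd⟩ := P.locConst B 𝓜 h𝓜
    have key : ∀ φ : SchemeHomOver (specBase (k := k) K) (specBase (k := k) B),
        degOf P (specBase (k := k) K)
          ((Scheme.Modules.pullback (baseChangeSnd c φ)).obj 𝓜) =
        dfun (φ.1 (IsLocalRing.closedPoint K)) := by
      intro φ
      rw [degOf_specBase, ← ker_algHomOf φ, ← hd K (algHomOf φ), specOver_algHomOf]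
    refine ⟨⟨dfun ⁻¹' {dfun (φ₀.1 (IsLocalRing.closedPoint K))}, hlc.isOpen_fiber _⟩, rfl, ?_⟩
    intro φ hφ
    rw [key φ, key φ₀]
    exact hφ

@[simp] theorem fibreDegreeOfPackage_deg (P : DegPackage c) {K : Type u} [Field K]
    [IsAlgClosed K] (x : Spec (CommRingCat.of K) ⟶ Spec (CommRingCat.of k))
    (L : (pullback c x).Modules) : (fibreDegreeOfPackage P).deg x L = degOf P x L := rfl

/-- **Comparison (E2)** for the bundled degree. -/
theorem fibreDegreeOfPackage_deg_specBase (P : DegPackage c) (K : Type u) [Field K]
    [IsAlgClosed K] [Algebra k K] (L : (pullback c (specBase (k := k) K)).Modules) :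
    (fibreDegreeOfPackage P).deg (specBase (k := k) K) L = P.degSB K L :=
  degOf_specBase P K L

end Fermat.Agent.JAC.AE0.FibreDegree35
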