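/-
Programme JAC (S25), work package B7c: the degree-zero cut and the transfer to the
algebraic-equivalence cut.

* `degZeroCut d ε : SubPicCondition c ε`: degree zero on all geometric fibres, for an abstract
  degree theory `d : FibreDegree c`;
* `representsRelSubPic_algEquivZeroCut`: a scheme representing the degree-zero cut, geometrically
  integral and locally of finite type, represents the algebraic-equivalence-to-zero cut of the
  Prelude;
* `degZeroCut_of_cover`: the degree-zero condition is local on the base.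
-/
import Mathlib
import Fermat.Prelude.Def_AlgebraicGeometry_RelPicardAlgEquivZeroCut
import Fermat.Agent.JAC.AE0.PoincareMem35
import Fermat.Agent.JAC.AE0.DegZero35

set_option autoImplicit false
set_option linter.unusedSectionVars false

universe u

open CategoryTheory CategoryTheory.Limits AlgebraicGeometry AlgebraicGeometry.RelPicard
  NeronModelInfra GoodReductionJacobian

namespace Fermat.Agent.JAC.AE0.Transfer35

open Fermat.Agent.JAC.AE0.PoincareMem35 Fermat.Agent.JAC.AE0.DegZero35

variable {k : Type u} [Field k] {C : Scheme.{u}} {c : C ⟶ Spec (CommRingCat.of k)}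

/-- The degree does not see propositional equalities of the geometric point. -/
theorem deg_eq_of_eq (d : FibreDegree c) {K : Type u} [Field K] [IsAlgClosed K]
    {x x' : Spec (CommRingCat.of K) ⟶ Spec (CommRingCat.of k)} (h : x = x')
    (L : (pullback c x).Modules) (L' : (pullback c x').Modules)
    (g : pullback c x' ⟶ pullback c x) (hg1 : g ≫ pullback.fst c x = pullback.fst c x')
    (hg2 : g ≫ pullback.snd c x = pullback.snd c x')
    (e : L' ≅ (Scheme.Modules.pullback g).obj L) : d.deg x' L' = d.deg x L := by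
  subst h
  have hg : g = 𝟙 _ := by
    apply pullback.hom_ext
    · rw [hg1, Category.id_comp]
    · rw [hg2, Category.id_comp]
  exact d.deg_congr x ⟨e ≪≫ (Scheme.Modules.pullbackCongr hg).app L ≪≫
    (Scheme.Modules.pullbackId _).app L⟩

/-- The degree of the fibre of a pulled-back sheaf at a geometric point `s'` is the degree of the
fibre of the original sheaf at the image geometric point. -/
theorem deg_pullback_eq (d : FibreDegree c) {T T' : Scheme.{u}}
    {t : T ⟶ Spec (CommRingCat.of k)} {t' : T' ⟶ Spec (CommRingCat.of k)}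
    (ψ : SchemeHomOver t' t) (L : (pullback c t).Modules) {K : Type u} [Field K] [IsAlgClosed K]
    (s' : Spec (CommRingCat.of K) ⟶ T') (s : Spec (CommRingCat.of K) ⟶ T) (hs : s' ≫ ψ.1 = s) :
    d.deg (s' ≫ t') ((Scheme.Modules.pullback
        (baseChangeSnd c (⟨s', rfl⟩ : SchemeHomOver (s' ≫ t') t'))).obj
          ((Scheme.Modules.pullback (baseChangeSnd c ψ)).obj L)) =
      d.deg (s ≫ t) ((Scheme.Modules.pullback
        (baseChangeSnd c (⟨s, rfl⟩ : SchemeHomOver (s ≫ t) t))).obj L) := by
  subst hs
  have h : (s' ≫ ψ.1) ≫ t = s' ≫ t' := by rw [Category.assoc, ψ.2]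
  let σ : SchemeHomOver (s' ≫ t') ((s' ≫ ψ.1) ≫ t) :=
    ⟨𝟙 _, by rw [Category.id_comp]; exact h⟩
  have hcomp : baseChangeSnd c (⟨s', rfl⟩ : SchemeHomOver (s' ≫ t') t') ≫ baseChangeSnd c ψ =
      baseChangeSnd c σ ≫
        baseChangeSnd c (⟨s' ≫ ψ.1, rfl⟩ : SchemeHomOver ((s' ≫ ψ.1) ≫ t) t) := by
    apply pullback.hom_ext
    · simp only [baseChangeSnd, Category.assoc, pullback.lift_fst, pullback.lift_fst_assoc,
        Category.comp_id]
    · simp only [baseChangeSnd, Category.assoc, pullback.lift_snd, pullback.lift_snd_assoc,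
        Category.id_comp, σ]
  refine deg_eq_of_eq d h _ _ (baseChangeSnd c σ) ?_ ?_ ?_
  · simp only [baseChangeSnd, pullback.lift_fst, Category.comp_id]
  · simp only [baseChangeSnd, pullback.lift_snd, Category.comp_id, σ]
  · exact (Scheme.Modules.pullbackComp _ _).app L ≪≫
      (Scheme.Modules.pullbackCongr hcomp).app L ≪≫
      ((Scheme.Modules.pullbackComp _ _).app L).symm

variable {ε : SchemeHomOver (𝟙 (Spec (CommRingCat.of k))) c}

/-- Degree zero on all geometric fibres. -/
def DegZero (d : FibreDegree c) {T : Scheme.{u}} (t : T ⟶ Spec (CommRingCat.of k))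
    (L : (pullback c t).Modules) : Prop :=
  ∀ (K : Type u) [Field K] [IsAlgClosed K] (s : Spec (CommRingCat.of K) ⟶ T),
    d.deg (s ≫ t) ((Scheme.Modules.pullback
      (baseChangeSnd c (⟨s, rfl⟩ : SchemeHomOver (s ≫ t) t))).obj L) = 0

theorem DegZero.of_iso (d : FibreDegree c) {T : Scheme.{u}} {t : T ⟶ Spec (CommRingCat.of k)}
    {L L' : (pullback c t).Modules} (e : L ≅ L') (h : DegZero d t L) : DegZero d t L' := by
  intro K _ _ s
  rw [← h K s]
  exact d.deg_congr _ ⟨(Scheme.Modules.pullback _).mapIso e.symm⟩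

theorem degZero_unit (d : FibreDegree c) {T : Scheme.{u}} (t : T ⟶ Spec (CommRingCat.of k)) :
    DegZero d t (SheafOfModules.unit (pullback c t).ringCatSheaf) := by
  intro K _ _ s
  rw [← d.deg_unit (s ≫ t)]
  exact d.deg_congr _ ⟨Scheme.Modules.pullbackUnitIso _⟩

theorem DegZero.pullback (d : FibreDegree c) {T T' : Scheme.{u}}
    {t : T ⟶ Spec (CommRingCat.of k)} {t' : T' ⟶ Spec (CommRingCat.of k)}
    (ψ : SchemeHomOver t' t) {L : (pullback c t).Modules} (h : DegZero d t L) :
    DegZero d t' ((Scheme.Modules.pullback (baseChangeSnd c ψ)).obj L) := by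
  intro K _ _ s'
  rw [deg_pullback_eq d ψ L s' (s' ≫ ψ.1) rfl]
  exact h K (s' ≫ ψ.1)

/-- The degree-zero condition is local on the base: it can be checked on a jointly surjective
family of open immersions. -/
theorem degZero_of_cover (d : FibreDegree c) {T : Scheme.{u}} (t : T ⟶ Spec (CommRingCat.of k))
    (L : (pullback c t).Modules) {ι : Type*} (X : ι → Scheme.{u}) (f : ∀ a, X a ⟶ T)
    [∀ a, IsOpenImmersion (f a)] (hcov : ∀ z : T, ∃ a, z ∈ Set.range (f a))
    (h : ∀ a, DegZero d (f a ≫ t) ((Scheme.Modules.pullback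
      (baseChangeSnd c (⟨f a, rfl⟩ : SchemeHomOver (f a ≫ t) t))).obj L)) :
    DegZero d t L := by
  intro K _ _ s
  obtain ⟨a, ha⟩ := hcov (s (IsLocalRing.closedPoint K))
  have hr : Set.range s ⊆ Set.range (f a) := by
    rintro _ ⟨p, rfl⟩
    rwa [Subsingleton.elim p (IsLocalRing.closedPoint K)]
  let s' : Spec (CommRingCat.of K) ⟶ X a := IsOpenImmersion.lift (f a) s hr
  have hs' : s' ≫ f a = s := IsOpenImmersion.lift_fac _ _ _
  rw [← deg_pullback_eq d (⟨f a, rfl⟩ : SchemeHomOver (f a ≫ t) t) L s' s hs']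
  exact h a K s'

/-- **B7c (i).** The degree-zero cut of the relative Picard functor. -/
def degZeroCut (d : FibreDegree c) (ε : SchemeHomOver (𝟙 (Spec (CommRingCat.of k))) c) :
    SubPicCondition c ε where
  P := fun t M => DegZero d t M.L
  unit_mem := fun t => degZero_unit d t
  congr := fun _ _ _ h hM => hM.of_iso d h.some
  pullback_mem := fun _ _ ψ _ hM => hM.pullback d ψ

@[simp] theorem degZeroCut_P (d : FibreDegree c) {T : Scheme.{u}}
    (t : T ⟶ Spec (CommRingCat.of k)) (M : RigidifiedLineBundle c ε t) :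
    (degZeroCut d ε).P t M ↔ DegZero d t M.L := Iff.rfl

/-- **B7c (iii).** The degree-zero cut is local on the base (family of open immersions). -/
theorem degZeroCut_of_cover (d : FibreDegree c) {T : Scheme.{u}}
    (t : T ⟶ Spec (CommRingCat.of k)) (M : RigidifiedLineBundle c ε t) {ι : Type*}
    (X : ι → Scheme.{u}) (f : ∀ a, X a ⟶ T) [∀ a, IsOpenImmersion (f a)]
    (hcov : ∀ z : T, ∃ a, z ∈ Set.range (f a))
    (h : ∀ a, (degZeroCut d ε).P (f a ≫ t)
      (M.pullbackAlong (⟨f a, rfl⟩ : SchemeHomOver (f a ≫ t) t))) :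
    (degZeroCut d ε).P t M :=
  degZero_of_cover d t M.L X f hcov h

/-- **B7c (iii)**, for a Zariski cover of the base. -/
theorem degZeroCut_of_openCover (d : FibreDegree c) {T : Scheme.{u}}
    (t : T ⟶ Spec (CommRingCat.of k)) (M : RigidifiedLineBundle c ε t) (𝒰 : T.OpenCover)
    (h : ∀ a, (degZeroCut d ε).P (𝒰.f a ≫ t)
      (M.pullbackAlong (⟨𝒰.f a, rfl⟩ : SchemeHomOver (𝒰.f a ≫ t) t))) :
    (degZeroCut d ε).P t M :=
  degZeroCut_of_cover d t M 𝒰.X 𝒰.f (fun z => ⟨𝒰.idx z, 𝒰.covers z⟩) h

/-- Fibrewise algebraic equivalence to zero implies degree zero on geometric fibres. -/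
theorem degZeroCut_of_fibrewiseAlgEquivZero (d : FibreDegree c) {T : Scheme.{u}}
    (t : T ⟶ Spec (CommRingCat.of k)) (M : RigidifiedLineBundle c ε t)
    (hM : FibrewiseAlgEquivZero M) : (degZeroCut d ε).P t M :=
  fun _ _ _ s => deg_fibre_eq_zero d M hM s

/-- **B7c (ii).** A geometrically integral scheme, locally of finite type over `k`, representing
the degree-zero cut also represents the algebraic-equivalence-to-zero cut. -/
noncomputable def representsRelSubPic_algEquivZeroCut (d : FibreDegree c)
    (D : RelativePic0Designation k c) [LocallyOfFiniteType D.toBase]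
    [GeometricallyIntegral D.toBase] (h : RepresentsRelSubPic c ε (degZeroCut d ε) D) :
    RepresentsRelSubPic c ε (algEquivZeroCut c ε) D where
  poincare := h.poincare
  poincare_mem := fibrewiseAlgEquivZero_of_zero D h.poincare h.zero
  univ := fun t M hM => h.univ t M (degZeroCut_of_fibrewiseAlgEquivZero d t M hM)
  zero := h.zero

end Fermat.Agent.JAC.AE0.Transfer35
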