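/-
Programme JAC (S25), work package B7a, layer 2: the degree package attached to a dictionary
"invertible sheaves on `C ×ₖ Spec B` ↦ line diagrams over `B ⊗[k] A_i`" (`DiagData`), given the
local constancy of the degree of line diagrams in families (an algebra-side statement).
-/
import Mathlib
import Fermat.Agent.JAC.AE0.FibreDegree35
import Fermat.Agent.JAC.AE0.Transfer35
import Fermat.Agent.JAC.Core.ConstFamily36
import Fermat.Agent.JAC.Core.Degree36
import Fermat.Agent.JAC.Grp.Cart33
import Fermat.Agent.JAC.Mod.AffineInv85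

set_option autoImplicit false
set_option linter.unusedSectionVars false

universe u

open CategoryTheory CategoryTheory.Limits AlgebraicGeometry AlgebraicGeometry.RelPicard
  NeronModelInfra

namespace Fermat.Agent.JAC.AE0.DegPackage35

open scoped TensorProduct
open scoped Fermat.Agent.JAC.Core.ConstFamily36
open Fermat.Agent.JAC.AE0.DegZero35 Fermat.Agent.JAC.AE0.FibreDegree35
  Fermat.Agent.JAC.AE0.Transfer35
  Fermat.Agent.JAC.Bridge.ChartCover57 Fermat.Agent.JAC.Core.Defs36
  Fermat.Agent.JAC.Core.Cart36 Fermat.Agent.JAC.Core.ConstFamily36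
  Fermat.Agent.JAC.Core.Degree36 Fermat.Agent.JAC.Grp.Diag33 Fermat.Agent.JAC.Grp.Cart33

variable {k : Type u} [Field k] {C : Scheme.{u}} (c : C ⟶ Spec (CommRingCat.of k))
  (A0 A1 A01 : Type u) [CommRing A0] [CommRing A1] [CommRing A01]
  [Algebra k A0] [Algebra k A1] [Algebra k A01] [Algebra A0 A01] [Algebra A1 A01]
  [IsScalarTower k A0 A01] [IsScalarTower k A1 A01] (t : A0) (s : A1)
  [IsLocalization.Away t A01] [IsLocalization.Away s A01]

/-- A dictionary from invertible sheaves on the constant families `C ×ₖ Spec B` to line diagrams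
over `(B ⊗[k] A0 → B ⊗[k] A01 ← B ⊗[k] A1; 1 ⊗ t, 1 ⊗ s)`, compatible with isomorphisms, the unit and
base change. -/
structure DiagData : Type (u + 1) where
  /-- the line diagram of an invertible sheaf -/
  diag : ∀ (B : Type u) [CommRing B] [Algebra k B]
    (L : (pullback c (specBase (k := k) B)).Modules), Scheme.Modules.IsInvertible L →
      LineDiag ((1 : B) ⊗ₜ[k] t) ((1 : B) ⊗ₜ[k] s) (B ⊗[k] A01)
  iso : ∀ (B : Type u) [CommRing B] [Algebra k B]
    {L L' : (pullback c (specBase (k := k) B)).Modules} (_ : L ≅ L')
    (hL : Scheme.Modules.IsInvertible L) (hL' : Scheme.Modules.IsInvertible L'),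
      Nonempty (LineDiag.Iso (diag B L hL) (diag B L' hL'))
  unit : ∀ (B : Type u) [CommRing B] [Algebra k B],
    Nonempty (LineDiag.Iso
      (diag B (SheafOfModules.unit (pullback c (specBase (k := k) B)).ringCatSheaf)
        (Scheme.Modules.isInvertible_unit _))
      (LineDiag.unit ((1 : B) ⊗ₜ[k] t) ((1 : B) ⊗ₜ[k] s) (B ⊗[k] A01)))
  cart : ∀ (B B' : Type u) [CommRing B] [Algebra k B] [CommRing B'] [Algebra k B']
    (φ : B →ₐ[k] B') (L : (pullback c (specBase (k := k) B)).Modules)
    (hL : Scheme.Modules.IsInvertible L),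
      Nonempty (LineDiag.CartHom (familyHom φ t s) (diag B L hL)
        (diag B' ((Scheme.Modules.pullback (baseChangeSnd c (specOver B φ))).obj L)
          (hL.pullback _)))

variable {c A0 A1 A01 t s}

/-- The degree of a sheaf on a standard geometric fibre: the degree of its line diagram if it is
invertible, `0` otherwise. -/
noncomputable def degSBOf (X : DiagData c A0 A1 A01 t s) (K : Type u) [Field K] [IsAlgClosed K]
    [Algebra k K] (L : (pullback c (specBase (k := k) K)).Modules) : ℤ := by
  classical
  exact if hL : Scheme.Modules.IsInvertible L then deg K (X.diag K L hL) else 0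

theorem degSBOf_of_isInvertible (X : DiagData c A0 A1 A01 t s) (K : Type u) [Field K]
    [IsAlgClosed K] [Algebra k K] (L : (pullback c (specBase (k := k) K)).Modules)
    (hL : Scheme.Modules.IsInvertible L) : degSBOf X K L = deg K (X.diag K L hL) := by
  classical
  unfold degSBOf
  rw [dif_pos hL]

theorem degSBOf_eq_degClass (X : DiagData c A0 A1 A01 t s) (K : Type u) [Field K]
    [IsAlgClosed K] [Algebra k K] (L : (pullback c (specBase (k := k) K)).Modules)
    (hL : Scheme.Modules.IsInvertible L) :
    degSBOf X K L = degClass K (cls (X.diag K L hL)) :=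
  degSBOf_of_isInvertible X K L hL

/-- The hypothesis of local constancy of the degree of line diagrams in families (algebra side;
`Frame.DegFamily65`). -/
def DegLocConst (k A0 A1 A01 : Type u) [Field k] [CommRing A0] [CommRing A1] [CommRing A01]
    [Algebra k A0] [Algebra k A1] [Algebra k A01] [Algebra A0 A01] [Algebra A1 A01]
    [IsScalarTower k A0 A01] [IsScalarTower k A1 A01] (t : A0) (s : A1)
    [IsLocalization.Away t A01] [IsLocalization.Away s A01] : Prop :=
  ∀ (B : Type u) [CommRing B] [Algebra k B]
    (ξ : LineDiag.Classes ((1 : B) ⊗ₜ[k] t) ((1 : B) ⊗ₜ[k] s) (B ⊗[k] A01)),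
    ∃ dfun : PrimeSpectrum B → ℤ, IsLocallyConstant dfun ∧
      ∀ (K : Type u) [Field K] [IsAlgClosed K] [Algebra k K] (ψ : B →ₐ[k] K),
        degClass K (baseChangeClass (familyHom ψ t s) ξ) =
          dfun ⟨RingHom.ker ψ.toRingHom, RingHom.ker_isPrime ψ.toRingHom⟩

/-- **Layer 2.** The degree package of a dictionary. -/
noncomputable def degPackage (X : DiagData c A0 A1 A01 t s)
    (hlc : DegLocConst k A0 A1 A01 t s) : DegPackage c where
  degSB := fun K _ _ _ L => degSBOf X K L
  congr := by
    intro K _ _ _ L L' ⟨e⟩
    classical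
    by_cases hL : Scheme.Modules.IsInvertible L
    · have hL' : Scheme.Modules.IsInvertible L' :=
        Fermat.Agent.JAC.Mod.AffineInv85.isInvertible_of_iso e hL
      rw [degSBOf_of_isInvertible X K L hL, degSBOf_of_isInvertible X K L' hL']
      exact deg_congr K (X.iso K e hL hL').some
    · have hL' : ¬ Scheme.Modules.IsInvertible L' := fun h =>
        hL (Fermat.Agent.JAC.Mod.AffineInv85.isInvertible_of_iso e.symm h)
      unfold degSBOf
      rw [dif_neg hL, dif_neg hL']
  unit := by
    intro K _ _ _
    rw [degSBOf_of_isInvertible X K _ (Scheme.Modules.isInvertible_unit _),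
      deg_congr K (X.unit K).some, deg_unit]
  locConst := by
    intro B _ _ 𝓜 h𝓜
    obtain ⟨dfun, hlc', hd⟩ := hlc B (cls (X.diag B 𝓜 h𝓜))
    refine ⟨dfun, hlc', ?_⟩
    intro K _ _ _ ψ
    rw [degSBOf_eq_degClass X K _ (h𝓜.pullback _), ← hd K ψ,
      (baseChangeClass_cls_eq_iff (familyHom ψ t s) _ _).mpr (X.cart B K ψ 𝓜 h𝓜)]

/-- The fibre degree of a dictionary. -/
noncomputable def fibreDegree (X : DiagData c A0 A1 A01 t s)
    (hlc : DegLocConst k A0 A1 A01 t s) : FibreDegree c :=
  fibreDegreeOfPackage (degPackage X hlc)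

/-- **Comparison (E2)**: on a standard geometric fibre, the fibre degree of an invertible sheaf is
the degree of its line diagram. -/
theorem fibreDegree_deg_specBase (X : DiagData c A0 A1 A01 t s)
    (hlc : DegLocConst k A0 A1 A01 t s) (K : Type u) [Field K] [IsAlgClosed K] [Algebra k K]
    (L : (pullback c (specBase (k := k) K)).Modules) (hL : Scheme.Modules.IsInvertible L) :
    (fibreDegree X hlc).deg (specBase (k := k) K) L = degClass K (cls (X.diag K L hL)) := by
  unfold fibreDegree
  rw [fibreDegreeOfPackage_deg_specBase]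
  exact degSBOf_eq_degClass X K L hL

section DegZero

/-- The degree of a base-changed sheaf, with the base morphism of the geometric point as a
variable. -/
theorem deg_baseChangeSnd_eq (d : FibreDegree c) {T : Scheme.{u}}
    {t : T ⟶ Spec (CommRingCat.of k)} (L : (pullback c t).Modules) {K : Type u} [Field K]
    [IsAlgClosed K] {x' : Spec (CommRingCat.of K) ⟶ Spec (CommRingCat.of k)}
    (φ : SchemeHomOver x' t) :
    d.deg x' ((Scheme.Modules.pullback (baseChangeSnd c φ)).obj L) =
      d.deg (φ.1 ≫ t) ((Scheme.Modules.pullback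
        (baseChangeSnd c (⟨φ.1, rfl⟩ : SchemeHomOver (φ.1 ≫ t) t))).obj L) := by
  obtain ⟨s', h⟩ := φ
  subst h
  rfl

/-- Degree zero on geometric fibres, quantified over all geometric points over `t`. -/
theorem degZero_iff (d : FibreDegree c) {T : Scheme.{u}} (t : T ⟶ Spec (CommRingCat.of k))
    (L : (pullback c t).Modules) :
    DegZero d t L ↔ ∀ (K : Type u) [Field K] [IsAlgClosed K]
      (x' : Spec (CommRingCat.of K) ⟶ Spec (CommRingCat.of k)) (φ : SchemeHomOver x' t),
        d.deg x' ((Scheme.Modules.pullback (baseChangeSnd c φ)).obj L) = 0 := by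
  constructor
  · intro h K _ _ x' φ
    rw [deg_baseChangeSnd_eq]
    exact h K φ.1
  · intro h K _ _ s'
    exact h K (s' ≫ t) ⟨s', rfl⟩

/-- Over a standard affine base, degree zero on geometric fibres can be tested on the standard
geometric points `ψ : B →ₐ[k] K`. -/
theorem degZero_specBase_iff' (d : FibreDegree c) (B : Type u) [CommRing B] [Algebra k B]
    (L : (pullback c (specBase (k := k) B)).Modules) :
    DegZero d (specBase (k := k) B) L ↔
      ∀ (K : Type u) [Field K] [IsAlgClosed K] [Algebra k K] (ψ : B →ₐ[k] K),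
        d.deg (specBase (k := k) K)
          ((Scheme.Modules.pullback (baseChangeSnd c (specOver B ψ))).obj L) = 0 := by
  rw [degZero_iff]
  constructor
  · intro h K _ _ _ ψ
    exact h K _ (specOver B ψ)
  · intro h K _ _ x' φ
    obtain ⟨alg, rfl⟩ := exists_alg_eq_specBase x'
    rw [← specOver_algHomOf φ]
    exact h K (algHomOf φ)

/-- **The dictionary for the degree-zero cut** (for B3.4): over a standard affine base, an
invertible sheaf has degree zero on all geometric fibres iff the class of its line diagram has
degree zero after every base change to an algebraically closed field. -/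
theorem degZero_specBase_iff (X : DiagData c A0 A1 A01 t s)
    (hlc : DegLocConst k A0 A1 A01 t s) (B : Type u) [CommRing B] [Algebra k B]
    (L : (pullback c (specBase (k := k) B)).Modules) (hL : Scheme.Modules.IsInvertible L) :
    DegZero (fibreDegree X hlc) (specBase (k := k) B) L ↔
      ∀ (K : Type u) [Field K] [IsAlgClosed K] [Algebra k K] (ψ : B →ₐ[k] K),
        degClass K (baseChangeClass (familyHom ψ t s) (cls (X.diag B L hL))) = 0 := by
  rw [degZero_specBase_iff']
  refine forall_congr' fun K => forall_congr' fun _ => forall_congr' fun _ =>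
    forall_congr' fun _ => forall_congr' fun ψ => ?_
  rw [fibreDegree_deg_specBase X hlc K _ (hL.pullback _),
    (baseChangeClass_cls_eq_iff (familyHom ψ t s) _ _).mpr (X.cart B K ψ L hL)]

end DegZero

end Fermat.Agent.JAC.AE0.DegPackage35
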