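/-
Programme JAC (S25), work package B7a: the hypothesis `DegPackage35.DegLocConst` (local constancy
of the degree of line diagrams in families) from `Frame.DegFamily65` and `Grp.ConstBc33`.
-/
import Mathlib
import Fermat.Agent.JAC.AE0.DegPackage35
import Fermat.Agent.JAC.Frame.DegFamily65
import Fermat.Agent.JAC.Grp.ConstBc33
import Fermat.Agent.JAC.B2.FibreSetting37

set_option autoImplicit false
set_option linter.unusedSectionVars false

universe u

namespace Fermat.Agent.JAC.AE0.DegLocConst35

open scoped TensorProduct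
open scoped Fermat.Agent.JAC.Core.ConstFamily36
open Polynomial Fermat.Agent.JAC.AE0.DegPackage35 Fermat.Agent.JAC.Core.AlgAtlas36
  Fermat.Agent.JAC.Frame.DegFamily65 Fermat.Agent.JAC.Grp.ConstBc33

variable {k : Type u} [Field k] {A0 A1 A01 : Type u} [CommRing A0] [CommRing A1] [CommRing A01]
  [Algebra k A0] [Algebra k A1] [Algebra k A01] [Algebra A0 A01] [Algebra A1 A01]
  [IsScalarTower k A0 A01] [IsScalarTower k A1 A01] {t : A0} {s : A1}
  [IsLocalization.Away t A01] [IsLocalization.Away s A01]

/-- The degree of line diagrams over the constant family is locally constant in families, under the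
CURVE-block hypotheses (`ts = 1`, `A0`, `A1` finite free over `k[t]`, `k[s]` in coordinate
form). -/
theorem degLocConst (hts : algebraMap A0 A01 t * algebraMap A1 A01 s = 1)
    {n0 n1 : ℕ} (a0 : Fin n0 → A0)
    (ha0 : Function.Bijective (fun p : Fin n0 → k[X] => ∑ j, Polynomial.aeval t (p j) * a0 j))
    (a1 : Fin n1 → A1)
    (ha1 : Function.Bijective (fun p : Fin n1 → k[X] => ∑ j, Polynomial.aeval s (p j) * a1 j)) :
    DegLocConst k A0 A1 A01 t s := by
  intro B _ _ ξ
  refine ⟨degFun ξ, isLocallyConstant_degFun hts a0 ha0 a1 ha1 ξ, ?_⟩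
  intro K _ _ _ ψ
  rw [← bc_eq_baseChangeClass]
  exact degClass_bc_eq_degFun hts a0 ha0 a1 ha1 ξ K ψ

section Curve

open AlgebraicGeometry Fermat.Agent.JAC.B2.TwoChart37 Fermat.Agent.JAC.B2.CurveBlock37
  Fermat.Agent.JAC.B2.FibreSetting37

variable {k : Type u} [Field k] {C : Scheme.{u}} {c : C ⟶ Spec (CommRingCat.of k)}
  (D : TwoChartData c)

attribute [local instance] algK₀ algK₁ algK₀₁ alg₀ alg₁

/-- Local constancy of the degree for the CURVE block of two-chart data of a curve. -/
theorem degLocConst_twoChartData :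
    DegLocConst k (A₀ D) (A₁ D) (A₀₁ D) D.t D.s := by
  obtain ⟨n0, a0, ha0⟩ := exists_coords₀ D
  obtain ⟨n1, a1, ha1⟩ := exists_coords₁ D
  exact degLocConst (hts D) a0 ha0 a1 ha1

end Curve

end Fermat.Agent.JAC.AE0.DegLocConst35
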