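/-
Programme JAC (S25), work package B7c.  Owner: helper36.

THE DEGREE-ZERO CUT.  For an abstract degree theory `d : FibreDegree c` (helper35, `DegZero35`) the
condition "degree `0` at every geometric point of the base" is a `SubPicCondition`, it is local
for open covers of the base, and a designation representing it also represents the cut
`algEquivZeroCut` of the frozen statement S25 as soon as its structure morphism is locally of
finite type and geometrically integral.  All representability work is done for `degZeroCut`,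
which avoids any circularity with the properties of the representing scheme.

NOTE.  helper35 landed the same package simultaneously as `AE0.Transfer35`; the CANONICAL cut used
by the final assembly is `Transfer35.degZeroCut`.  This file is kept for the flexible form
`HasDegZero` of the condition (arbitrary `σ : SchemeHomOver x t` instead of `⟨s, rfl⟩`) and for the
identification `degZeroCut_eq` of the two cuts.
-/
import Mathlib
import Fermat.Prelude.Def_AlgebraicGeometry_RelPicardAlgEquivZeroCut
import Fermat.Agent.JAC.AE0.PoincareMem35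
import Fermat.Agent.JAC.AE0.DegZero35
import Fermat.Agent.JAC.AE0.Transfer35

set_option autoImplicit false

universe u

open CategoryTheory CategoryTheory.Limits AlgebraicGeometry AlgebraicGeometry.RelPicard
  NeronModelInfra GoodReductionJacobian

namespace Fermat.Agent.JAC.AE0.DegZeroCut36

open Fermat.Agent.JAC.AE0.PoincareMem35 Fermat.Agent.JAC.AE0.DegZero35

variable {k : Type u} [Field k] {C : Scheme.{u}} {c : C ⟶ Spec (CommRingCat.of k)}
  (d : FibreDegree c)

/-- A sheaf of modules on `C ×ₖ T` has degree zero at every geometric point of `T`. -/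
def HasDegZero {T : Scheme.{u}} (t : T ⟶ Spec (CommRingCat.of k)) (L : (pullback c t).Modules) :
    Prop :=
  ∀ (K : Type u) [Field K] [IsAlgClosed K] (x : Spec (CommRingCat.of K) ⟶ Spec (CommRingCat.of k))
    (σ : SchemeHomOver x t), d.deg x ((Scheme.Modules.pullback (baseChangeSnd c σ)).obj L) = 0

variable {d}

lemma HasDegZero.of_iso {T : Scheme.{u}} {t : T ⟶ Spec (CommRingCat.of k)}
    {L L' : (pullback c t).Modules} (e : L ≅ L') (h : HasDegZero d t L) : HasDegZero d t L' := by
  intro K _ _ x σ
  rw [← h K x σ]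
  exact d.deg_congr x ⟨(Scheme.Modules.pullback (baseChangeSnd c σ)).mapIso e.symm⟩

variable (d) in
lemma hasDegZero_unit {T : Scheme.{u}} (t : T ⟶ Spec (CommRingCat.of k)) :
    HasDegZero d t (SheafOfModules.unit (pullback c t).ringCatSheaf) := by
  intro K _ _ x σ
  rw [← d.deg_unit x]
  exact d.deg_congr x ⟨Scheme.Modules.pullbackUnitIso _⟩

lemma HasDegZero.pullback {T T' : Scheme.{u}} {t : T ⟶ Spec (CommRingCat.of k)}
    {t' : T' ⟶ Spec (CommRingCat.of k)} (ψ : SchemeHomOver t' t) {L : (pullback c t).Modules}
    (h : HasDegZero d t L) :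
    HasDegZero d t' ((Scheme.Modules.pullback (baseChangeSnd c ψ)).obj L) := by
  intro K _ _ x σ
  rw [← h K x (postComp ψ σ)]
  exact d.deg_congr x ⟨(Scheme.Modules.pullbackComp _ _).app L ≪≫
    (Scheme.Modules.pullbackCongr (baseChangeSnd_comp c ψ σ)).app L⟩

/-- The `rfl`-form of the condition (the form of `DegZero35.deg_fibre_eq_zero`). -/
lemma hasDegZero_iff {T : Scheme.{u}} {t : T ⟶ Spec (CommRingCat.of k)}
    {L : (pullback c t).Modules} :
    HasDegZero d t L ↔ ∀ (K : Type u) [Field K] [IsAlgClosed K] (s : Spec (CommRingCat.of K) ⟶ T),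
      d.deg (s ≫ t) ((Scheme.Modules.pullback
        (baseChangeSnd c (⟨s, rfl⟩ : SchemeHomOver (s ≫ t) t))).obj L) = 0 := by
  constructor
  · intro h K _ _ s
    exact h K (s ≫ t) ⟨s, rfl⟩
  · intro h K _ _ x σ
    obtain ⟨s, hs⟩ := σ
    subst hs
    exact h K s

variable (d) in
/-- **The degree-zero cut**: rigidified line bundles of degree zero on all geometric fibres. -/
noncomputable def degZeroCut (ε : SchemeHomOver (𝟙 (Spec (CommRingCat.of k))) c) :
    SubPicCondition c ε where
  P := fun t M => HasDegZero d t M.L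
  unit_mem := fun t => hasDegZero_unit d t
  congr := fun _ _ _ h hM => hM.of_iso h.some
  pullback_mem := fun _ _ ψ _ hM => hM.pullback ψ

variable {ε : SchemeHomOver (𝟙 (Spec (CommRingCat.of k))) c}

lemma degZeroCut_P {T : Scheme.{u}} (t : T ⟶ Spec (CommRingCat.of k))
    (M : RigidifiedLineBundle c ε t) : (degZeroCut d ε).P t M ↔ HasDegZero d t M.L := Iff.rfl

/-- A family which is fibrewise algebraically equivalent to zero has fibrewise degree zero. -/
theorem degZeroCut_of_fibrewiseAlgEquivZero {T : Scheme.{u}} {t : T ⟶ Spec (CommRingCat.of k)}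
    (M : RigidifiedLineBundle c ε t) (hM : FibrewiseAlgEquivZero M) : (degZeroCut d ε).P t M :=
  hasDegZero_iff.2 fun _ _ _ s => deg_fibre_eq_zero d M hM s

/-- **Locality of the degree-zero cut**: the condition can be checked on the members of an open
cover (more generally of any jointly surjective family) of the base. -/
theorem hasDegZero_of_cover {T : Scheme.{u}} (t : T ⟶ Spec (CommRingCat.of k))
    (𝒰 : Scheme.OpenCover.{u} T) (L : (pullback c t).Modules)
    (h : ∀ i, HasDegZero d (𝒰.f i ≫ t) ((Scheme.Modules.pullback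
      (baseChangeSnd c (⟨𝒰.f i, rfl⟩ : SchemeHomOver (𝒰.f i ≫ t) t))).obj L)) :
    HasDegZero d t L := by
  intro K _ _ x σ
  -- the geometric point factors through a member of the cover
  let z : T := σ.1 (IsLocalRing.closedPoint K)
  have hr : Set.range σ.1 ⊆ Set.range (𝒰.f (𝒰.idx z)) := by
    rintro _ ⟨p, rfl⟩
    rw [Subsingleton.elim p (IsLocalRing.closedPoint K)]
    exact 𝒰.covers z
  have : IsOpenImmersion (𝒰.f (𝒰.idx z)) := 𝒰.map_prop (𝒰.idx z)
  let φ : Spec (CommRingCat.of K) ⟶ 𝒰.X (𝒰.idx z) := IsOpenImmersion.lift (𝒰.f (𝒰.idx z)) σ.1 hr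
  have hφ : φ ≫ 𝒰.f (𝒰.idx z) = σ.1 := IsOpenImmersion.lift_fac _ _ _
  let σ' : SchemeHomOver x (𝒰.f (𝒰.idx z) ≫ t) := ⟨φ, by rw [reassoc_of% hφ, σ.2]⟩
  have hσ : postComp (⟨𝒰.f (𝒰.idx z), rfl⟩ : SchemeHomOver (𝒰.f (𝒰.idx z) ≫ t) t) σ' = σ :=
    Subtype.ext hφ
  rw [← h (𝒰.idx z) K x σ']
  refine d.deg_congr x ⟨?_⟩
  exact ((Scheme.Modules.pullbackCongr
      ((baseChangeSnd_comp c _ σ').trans (congrArg (baseChangeSnd c) hσ))).app L).symm ≪≫
    ((Scheme.Modules.pullbackComp _ _).app L).symm

/-- Locality of the degree-zero cut, in the form of `Repr.Wiring10.CutDescent.of_bundles`. -/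
theorem degZeroCut_of_cover {T : Scheme.{u}} (t : T ⟶ Spec (CommRingCat.of k))
    (𝒰 : Scheme.OpenCover.{u} T) (M : RigidifiedLineBundle c ε t)
    (h : ∀ i, (degZeroCut d ε).P (𝒰.f i ≫ t) (M.pullbackAlong ⟨𝒰.f i, rfl⟩)) :
    (degZeroCut d ε).P t M :=
  hasDegZero_of_cover t 𝒰 M.L h

/-- **B7c: transfer.**  A designation representing the degree-zero cut represents the cut
`algEquivZeroCut`, provided its structure morphism is locally of finite type and geometrically
integral. -/
noncomputable def representsAlgEquivZero (D : RelativePic0Designation k c)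
    [LocallyOfFiniteType D.toBase] [GeometricallyIntegral D.toBase]
    (h : RepresentsRelSubPic c ε (degZeroCut d ε) D) :
    RepresentsRelSubPic c ε (algEquivZeroCut c ε) D where
  poincare := h.poincare
  poincare_mem := fibrewiseAlgEquivZero_of_zero D h.poincare h.zero
  univ := fun t M hM => h.univ t M (degZeroCut_of_fibrewiseAlgEquivZero M hM)
  zero := h.zero

theorem nonempty_representsAlgEquivZero (D : RelativePic0Designation k c)
    [LocallyOfFiniteType D.toBase] [GeometricallyIntegral D.toBase]
    (h : Nonempty (RepresentsRelSubPic c ε (degZeroCut d ε) D)) :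
    Nonempty (RepresentsRelSubPic c ε (algEquivZeroCut c ε) D) :=
  ⟨representsAlgEquivZero D h.some⟩

/-- The flexible form of the condition agrees with the `rfl`-form of `Transfer35`. -/
lemma hasDegZero_iff_degZero {T : Scheme.{u}} {t : T ⟶ Spec (CommRingCat.of k)}
    {L : (pullback c t).Modules} : HasDegZero d t L ↔ Transfer35.DegZero d t L :=
  hasDegZero_iff

/-- The two degree-zero cuts coincide. -/
theorem degZeroCut_eq : degZeroCut d ε = Transfer35.degZeroCut d ε := by
  have h : ∀ (P Q : SubPicCondition c ε),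
      (∀ {T : Scheme.{u}} (t : T ⟶ Spec (CommRingCat.of k)) (M : RigidifiedLineBundle c ε t),
        P.P t M ↔ Q.P t M) → P = Q := by
    intro P Q hPQ
    obtain ⟨p, _, _, _⟩ := P
    obtain ⟨q, _, _, _⟩ := Q
    have hpq : @p = @q := by
      funext T t M
      exact propext (hPQ t M)
    subst hpq
    rfl
  exact h _ _ fun t M => hasDegZero_iff_degZero

end Fermat.Agent.JAC.AE0.DegZeroCut36
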